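import Fermat.Prelude.Def_GaloisRep_StrictOrdinary
import Fermat.Prelude.Def_GaloisRep_Flat
import Mathlib.RingTheory.TensorProduct.Free
import Mathlib.RingTheory.Ideal.Quotient.Operations

/-!
# Local deformation conditions and surjective base change

For a homomorphism `φ : A → B` of local rings, cyclotomic determinant, unramifiedness, unipotence on
inertia and strict ordinarity pass from a representation over `A` to its base change to `B`;
flatness passes when `φ` is surjective.
-/

set_option autoImplicit false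

open IsLocalRing Module
open scoped TensorProduct

namespace Fermat.Agent.TWAssembly

/-- An element lies in `I • M` exactly when its coordinates lie in `I`. -/
theorem mem_smul_top_iff_repr {A M ι : Type*} [CommRing A] [AddCommGroup M] [Module A M]
    [Fintype ι] (b : Basis ι A M) (I : Ideal A) (x : M) :
    x ∈ I • (⊤ : Submodule A M) ↔ ∀ i, b.repr x i ∈ I := by
  constructor
  · intro hx i
    refine Submodule.smul_induction_on (p := fun x => b.repr x i ∈ I) hx
      (fun a ha w _ => ?_) fun x y hx hy => ?_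
    · rw [map_smul, Finsupp.smul_apply, smul_eq_mul]
      exact I.mul_mem_right _ ha
    · rw [map_add, Finsupp.add_apply]
      exact add_mem hx hy
  · intro h
    rw [← b.sum_repr x]
    exact Submodule.sum_mem _ fun i _ => Submodule.smul_mem_smul (h i) Submodule.mem_top

variable {A B : Type} [CommRing A] [IsLocalRing A] [CommRing B] [IsLocalRing B] (φ : A →+* B)
  (hφ : IsLocalHom φ) {ρ : GaloisRepAdic A} {p : ℕ}

include hφ in
theorem natCast_mem_maximalIdeal_of_map (h : (p : A) ∈ maximalIdeal A) :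
    (p : B) ∈ maximalIdeal B := by
  have h' := map_nonunit φ _ h
  rwa [map_natCast] at h'

omit [IsLocalRing A] [IsLocalRing B] in
/-- A ring map preserves divisibility by a natural number. -/
theorem map_mem_span_natCast {x : A} {m : ℕ} (h : x ∈ Ideal.span {(m : A)}) :
    φ x ∈ Ideal.span {(m : B)} := by
  obtain ⟨t, rfl⟩ := Ideal.mem_span_singleton'.1 h
  exact Ideal.mem_span_singleton'.2 ⟨φ t, by rw [map_mul, map_natCast]⟩

/-- Cyclotomic determinant passes to a base change. -/
theorem detIsCyclotomic_baseChange (h : ρ.DetIsCyclotomic p) :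
    (ρ.baseChangeAlong φ hφ).DetIsCyclotomic p := by
  let _ : Algebra A B := φ.toAlgebra
  refine ⟨natCast_mem_maximalIdeal_of_map φ hφ h.1, fun n σ a ha => ?_⟩
  show LinearMap.det ((ρ.ρ σ).baseChange B) - _ ∈ _
  rw [LinearMap.det_baseChange]
  have h2 := map_mem_span_natCast φ (h.2 n σ a ha)
  rw [map_sub, map_natCast] at h2
  exact h2

/-- Unramifiedness passes to a base change. -/
theorem isUnramifiedAt_baseChange {q : ℕ} (h : ρ.IsUnramifiedAt q) :
    (ρ.baseChangeAlong φ hφ).IsUnramifiedAt q := by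
  let _ : Algebra A B := φ.toAlgebra
  intro P hP σ hσ
  show (ρ.ρ σ).baseChange B = 1
  rw [h P hP σ hσ, LinearMap.baseChange_one]

/-- Unipotence on inertia passes to a base change. -/
theorem isUnipotentOnInertiaAt_baseChange {q : ℕ} (h : ρ.IsUnipotentOnInertiaAt q) :
    (ρ.baseChangeAlong φ hφ).IsUnipotentOnInertiaAt q := by
  let _ : Algebra A B := φ.toAlgebra
  intro P hP σ hσ
  show LinearMap.charpoly ((ρ.ρ σ).baseChange B) = _
  rw [LinearMap.charpoly_baseChange, h P hP σ hσ]
  simp

/-- Strict ordinarity passes to a base change. -/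
theorem isStrictOrdinaryAt_baseChange (h : ρ.IsStrictOrdinaryAt p) :
    (ρ.baseChangeAlong φ hφ).IsStrictOrdinaryAt p := by
  let _ : Algebra A B := φ.toAlgebra
  refine ⟨natCast_mem_maximalIdeal_of_map φ hφ h.1, fun P hP => ?_⟩
  obtain ⟨L, ⟨b, hb⟩, hD, hI, hs⟩ := h.2 P hP
  let L' : Submodule B (B ⊗[A] ρ.V) := B ∙ ((1 : B) ⊗ₜ[A] b 0)
  have hL : ∀ (c : B) (w : ρ.V), w ∈ L → c ⊗ₜ[A] w ∈ L' := by
    intro c w hw
    rw [hb, Submodule.mem_span_singleton] at hw
    obtain ⟨a, rfl⟩ := hw
    exact Submodule.mem_span_singleton.2 ⟨c * φ a, by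
      rw [TensorProduct.smul_tmul', smul_eq_mul, mul_one, TensorProduct.tmul_smul,
        TensorProduct.smul_tmul', Algebra.smul_def, mul_comm]
      rfl⟩
  have key1 : L' = B ∙ (Algebra.TensorProduct.basis B b 0) := by
    rw [Algebra.TensorProduct.basis_apply]
  have hb0 : b 0 ∈ L := hb ▸ Submodule.mem_span_singleton_self _
  have key2 : ∀ σ ∈ P.decompositionSubgroup ℚ, ∀ v ∈ L', (ρ.ρ σ).baseChange B v ∈ L' := by
    intro σ hσ v hv
    obtain ⟨c, rfl⟩ := Submodule.mem_span_singleton.1 hv
    rw [map_smul, LinearMap.baseChange_tmul]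
    exact L'.smul_mem c (hL _ _ (hD σ hσ _ hb0))
  have key3 : ∀ σ ∈ P.inertiaSubgroupIn ℚ, ∀ v : B ⊗[A] ρ.V,
      (ρ.ρ σ).baseChange B v - v ∈ L' := by
    intro σ hσ v
    induction v using TensorProduct.induction_on with
    | zero => simp
    | tmul c v =>
      rw [LinearMap.baseChange_tmul, ← TensorProduct.tmul_sub]
      exact hL _ _ (hI σ hσ v)
    | add x y hx hy =>
      rw [map_add, add_sub_add_comm]
      exact add_mem hx hy
  have key4 : ∀ σ ∈ P.decompositionSubgroup ℚ, ∃ x z : B,
      (∀ w ∈ L', (ρ.ρ σ).baseChange B w = x • w) ∧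
      (∀ v : B ⊗[A] ρ.V, (ρ.ρ σ).baseChange B v - z • v ∈ L') ∧
      ∀ (n a : ℕ), (∀ μ : AlgebraicClosure ℚ, μ ^ p ^ n = 1 → σ μ = μ ^ a) →
        x - (a : B) * z ∈ Ideal.span {((p ^ n : ℕ) : B)} := by
    intro σ hσ
    obtain ⟨x, z, hx, hz, hxz⟩ := hs σ hσ
    refine ⟨φ x, φ z, fun w hw => ?_, fun v => ?_, fun n a ha => ?_⟩
    · obtain ⟨c, rfl⟩ := Submodule.mem_span_singleton.1 hw
      rw [map_smul, LinearMap.baseChange_tmul, hx _ hb0, TensorProduct.tmul_smul,
        smul_comm (φ x) c]
      congr 1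
    · induction v using TensorProduct.induction_on with
      | zero => simp
      | tmul c v =>
        rw [LinearMap.baseChange_tmul,
          show φ z • c ⊗ₜ[A] v = z • c ⊗ₜ[A] v from IsScalarTower.algebraMap_smul B z _,
          ← TensorProduct.tmul_smul, ← TensorProduct.tmul_sub]
        exact hL _ _ (hz v)
      | add x y hx hy =>
        rw [map_add, smul_add, add_sub_add_comm]
        exact add_mem hx hy
    · have h2 := map_mem_span_natCast φ (hxz n a ha)
      rw [map_sub, map_mul, map_natCast] at h2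
      exact h2
  exact ⟨L', ⟨Algebra.TensorProduct.basis B b, key1⟩, key2, key3, key4⟩

theorem finite_residueField_of_surjective (hsurj : Function.Surjective φ)
    [Finite (ResidueField A)] (hφ : IsLocalHom φ) : Finite (ResidueField B) :=
  haveI := hφ
  Finite.of_surjective (ResidueField.map φ) fun y => by
    obtain ⟨b, rfl⟩ := residue_surjective y
    obtain ⟨a, rfl⟩ := hsurj b
    exact ⟨residue A a, ResidueField.map_residue φ a⟩

/-- Flatness passes to a surjective base change. -/
theorem isFlatAt_baseChange (hsurj : Function.Surjective φ) (h : ρ.IsFlatAt p) :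
    (ρ.baseChangeAlong φ hφ).IsFlatAt p := by
  let _ : Algebra A B := φ.toAlgebra
  have := h.1
  refine ⟨finite_residueField_of_surjective φ hsurj hφ, fun I hI => ?_⟩
  let I' : Ideal A := I.comap φ
  have hI' : Finite (A ⧸ I') :=
    Finite.of_injective (Ideal.quotientMap I φ le_rfl) Ideal.quotientMap_injective
  obtain ⟨H, i1, i2, hfin, hflat, hco, e, he, hG⟩ := h.2 I' hI'
  let b := Module.finBasisOfFinrankEq A ρ.V ρ.finrank_eq
  let b' := Algebra.TensorProduct.basis B b
  let T : Submodule B (B ⊗[A] ρ.V) := I • ⊤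
  let f : ρ.V →ₗ[A] (B ⊗[A] ρ.V) ⧸ T :=
    (T.mkQ.restrictScalars A).comp (TensorProduct.mk A B ρ.V 1)
  have hker : LinearMap.ker f = I' • (⊤ : Submodule A ρ.V) := by
    ext v
    show T.mkQ ((1 : B) ⊗ₜ[A] v) = 0 ↔ _
    rw [Submodule.mkQ_apply, Submodule.Quotient.mk_eq_zero, mem_smul_top_iff_repr b' I,
      mem_smul_top_iff_repr b I']
    refine forall_congr' fun i => ?_
    rw [show b'.repr ((1 : B) ⊗ₜ[A] v) i = φ (b.repr v i) by
      rw [Algebra.TensorProduct.basis_repr_tmul]; simp [RingHom.algebraMap_toAlgebra]]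
    rfl
  have hf : Function.Surjective f := by
    intro z
    obtain ⟨z, rfl⟩ := Submodule.Quotient.mk_surjective T z
    induction z using TensorProduct.induction_on with
    | zero => exact ⟨0, by simp⟩
    | tmul c v =>
      obtain ⟨a, rfl⟩ := hsurj c
      refine ⟨a • v, ?_⟩
      show T.mkQ ((1 : B) ⊗ₜ[A] (a • v)) = T.mkQ ((φ a) ⊗ₜ[A] v)
      rw [TensorProduct.tmul_smul, TensorProduct.smul_tmul', Algebra.smul_def, mul_one]
      rfl
    | add x y hx hy =>
      obtain ⟨u, hu⟩ := hx
      obtain ⟨w, hw⟩ := hy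
      exact ⟨u + w, by rw [map_add, hu, hw, Submodule.Quotient.mk_add]⟩
  let g := (Submodule.quotEquivOfEq _ _ hker.symm).trans (f.quotKerEquivOfSurjective hf)
  refine ⟨H, i1, i2, hfin, hflat, hco, e.trans g.toEquiv, fun u v => ?_, fun σ u v huv => ?_⟩
  · show g (e (u * v)) = g (e u) + g (e v)
    rw [he, map_add]
  · show g (e v) = (ρ.baseChangeAlong φ hφ).levelAction I σ (g (e u))
    rw [hG σ u v huv]
    obtain ⟨w, hw⟩ := Submodule.Quotient.mk_surjective _ (e u)
    rw [← hw]
    show T.mkQ ((1 : B) ⊗ₜ[A] (ρ.ρ σ w)) = T.mkQ ((ρ.ρ σ).baseChange B ((1 : B) ⊗ₜ[A] w))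
    rw [LinearMap.baseChange_tmul]

end Fermat.Agent.TWAssembly
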