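import Fermat.Agent.TangentBound.Cocycle
import Fermat.Agent.Chebotarev.Basic
import Fermat.Agent.GaloisBasics.Roots
import Mathlib.LinearAlgebra.Matrix.Charpoly.Coeff
import Mathlib.RingTheory.RootsOfUnity.AlgebraicallyClosed
import Mathlib.Tactic.NormNum.Prime

/-!
# Taylor–Wiles primes detecting classes of the twisted adjoint representation

`GoodPrime` is the Taylor–Wiles condition of level `n` on a prime `q`: `q ≡ 1 (mod p^(n+1))`, the
representation is unramified at `q` and Frobenius has distinct eigenvalues. By Chebotarev density a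
cocycle which is nontrivial at a suitable Galois element is nontrivial at the Frobenius of a good
prime outside any given finite set (`exists_goodPrime_detecting`).
-/

set_option autoImplicit false

open Fermat.Agent.TangentBound
open Fermat.Agent.GaloisBasics

namespace Fermat.Agent.TWAssembly

variable {k : Type} [Field k]

/-- The discriminant of the characteristic polynomial. -/
def disc2 (A : Mat2 k) : k := A.trace ^ 2 - 4 * A.det

theorem disc2_smul_add (A : Mat2 k) (c e : k) :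
    disc2 (c • A + e • (1 : Mat2 k)) = c ^ 2 * disc2 A := by
  simp [disc2, Matrix.det_fin_two, Matrix.trace_fin_two]
  ring

/-- Cayley–Hamilton for two by two matrices. -/
theorem sq_eq_trace_smul_sub (A : Mat2 k) : A * A = A.trace • A - A.det • (1 : Mat2 k) := by
  ext i j
  fin_cases i <;> fin_cases j <;>
    simp [Matrix.mul_apply, Fin.sum_univ_two, Matrix.det_fin_two, Matrix.trace_fin_two] <;> ring

/-- Powers of a two by two matrix are combinations of `A` and `1`. -/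
theorem exists_pow_eq_smul_add (A : Mat2 k) (n : ℕ) :
    ∃ c e : k, A ^ n = c • A + e • (1 : Mat2 k) := by
  induction n with
  | zero => exact ⟨0, 1, by simp⟩
  | succ n ih =>
    obtain ⟨c, e, h⟩ := ih
    refine ⟨c * A.trace + e, -(c * A.det), ?_⟩
    rw [pow_succ, h, add_mul, smul_mul_assoc, smul_mul_assoc, one_mul, sq_eq_trace_smul_sub,
      smul_sub, smul_smul, smul_smul, add_smul, neg_smul]
    abel

theorem disc2_pow_eq_zero {A : Mat2 k} (h : disc2 A = 0) (n : ℕ) : disc2 (A ^ n) = 0 := by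
  obtain ⟨c, e, hn⟩ := exists_pow_eq_smul_add A n
  rw [hn, disc2_smul_add, h, mul_zero]

theorem disc2_conj (U : (Mat2 k)ˣ) (A : Mat2 k) :
    disc2 ((U : Mat2 k) * A * ((U⁻¹ : (Mat2 k)ˣ) : Mat2 k)) = disc2 A := by
  rw [disc2, disc2, Matrix.trace_units_conj, Matrix.det_units_conj]

variable (rb : GQ →* Mat2 k)

/-- `y` is trivial in the cohomology of the procyclic group generated by `φ`, twisted adjoint
action. -/
def TrivialAt (y : GQ → Mat2 k) (φ : GQ) : Prop :=
  ∃ X : Mat2 k, y φ = (rb φ).det • (rb φ * X * rb φ⁻¹) - X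

theorem trivialAt_pow {y : GQ → Mat2 k}
    (hy : ∀ σ τ, y (σ * τ) = y σ + (rb σ).det • (rb σ * y τ * rb σ⁻¹)) {φ : GQ} {X : Mat2 k}
    (hX : y φ = (rb φ).det • (rb φ * X * rb φ⁻¹) - X) (a : ℕ) :
    y (φ ^ a) = (rb (φ ^ a)).det • (rb (φ ^ a) * X * rb (φ ^ a)⁻¹) - X := by
  induction a with
  | zero =>
    have h1 := hy 1 1
    simp only [mul_one, map_one, inv_one, Matrix.det_one, one_smul, one_mul] at h1
    simp [right_eq_add.1 h1]
  | succ a ih =>
    rw [pow_succ', hy, hX, ih]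
    simp only [map_mul, mul_inv_rev, Matrix.det_mul, mul_sub, sub_mul, smul_sub, mul_smul_comm,
      smul_mul_assoc, smul_smul, mul_assoc]
    abel

/-- The pairing with `rb σ` detects non-triviality. -/
theorem trace_mul_eq_zero_of_trivial {y : GQ → Mat2 k} {σ : GQ} {X : Mat2 k}
    (hdet : (rb σ).det = 1) (hX : y σ = (rb σ).det • (rb σ * X * rb σ⁻¹) - X) :
    (y σ * rb σ).trace = 0 := by
  rw [hX, hdet, one_smul, sub_mul, Matrix.trace_sub, mul_assoc, ← map_mul, inv_mul_cancel,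
    map_one, mul_one, Matrix.trace_mul_comm, sub_self]

variable (p : ℕ) [Fact p.Prime] (S : Finset ℕ) (n : ℕ)

/-- The Taylor-Wiles condition of level `n` on a prime. -/
def GoodPrime (q : ℕ) : Prop :=
  q.Prime ∧ q ∉ S ∧ p ^ (n + 1) ∣ q - 1 ∧
    (∀ P : ValuationSubring (AlgebraicClosure ℚ), P.LiesOverPrime q →
      ∀ σ ∈ P.inertiaSubgroupIn ℚ, rb σ = 1) ∧
    ∀ P : ValuationSubring (AlgebraicClosure ℚ), P.LiesOverPrime q →
      ∀ φ : GQ, P.IsFrobeniusAt φ q → disc2 (rb φ) ≠ 0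

/-- A class `y` that is non-trivial at some element fixing `ζ_{p^(n+1)}` with distinct
eigenvalues is non-trivial at the Frobenius of a good prime outside any finite set. -/
theorem exists_goodPrime_detecting
    (hrb : ∃ F : IntermediateField ℚ (AlgebraicClosure ℚ), FiniteDimensional ℚ F ∧
      ∀ σ ∈ F.fixingSubgroup, rb σ = 1)
    {y : GQ → Mat2 k}
    (hy : ∀ σ τ, y (σ * τ) = y σ + (rb σ).det • (rb σ * y τ * rb σ⁻¹))
    (hyc : ∃ F : IntermediateField ℚ (AlgebraicClosure ℚ), FiniteDimensional ℚ F ∧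
      ∀ σ, ∀ τ ∈ F.fixingSubgroup, y (σ * τ) = y σ)
    {σ : GQ} (hσζ : ∀ μ : AlgebraicClosure ℚ, μ ^ p ^ (n + 1) = 1 → σ μ = μ)
    (hdet : (rb σ).det = 1) (hdisc : (rb σ).trace ^ 2 ≠ 4)
    (hne : (y σ * rb σ).trace ≠ 0) (T : Finset ℕ) :
    ∃ q, q ∉ T ∧ GoodPrime rb p S n q ∧
      ∃ P : ValuationSubring (AlgebraicClosure ℚ), P.LiesOverPrime q ∧
        ∃ φ : GQ, P.IsFrobeniusAt φ q ∧ ¬ TrivialAt rb y φ := by
  classical
  obtain ⟨F₁, hF₁, hF₁rb⟩ := hrb
  obtain ⟨F₂, hF₂, hF₂y⟩ := hyc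
  have hp : p.Prime := Fact.out
  have hNZ : NeZero (p ^ (n + 1)) := ⟨pow_ne_zero _ hp.ne_zero⟩
  have : NeZero ((p ^ (n + 1) : ℕ) : AlgebraicClosure ℚ) :=
    ⟨Nat.cast_ne_zero.2 (NeZero.ne _)⟩
  obtain ⟨ζ, hζ⟩ := HasEnoughRootsOfUnity.exists_primitiveRoot (AlgebraicClosure ℚ) (p ^ (n + 1))
  let F₃ : IntermediateField ℚ (AlgebraicClosure ℚ) := IntermediateField.adjoin ℚ {ζ}
  have : FiniteDimensional ℚ F₃ := IntermediateField.adjoin.finiteDimensional
    ((Algebra.IsAlgebraic.isAlgebraic (R := ℚ) ζ).isIntegral)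
  let L := F₁ ⊔ F₂ ⊔ F₃
  obtain ⟨q, hq, hqS, hI, A, hA, φ, hφ, m, j, a, -, -, -, hj, ha⟩ :=
    Chebotarev.exists_isFrobeniusAt_pow L σ (insert p (S ∪ T))
  simp only [Finset.mem_insert, Finset.mem_union, not_or] at hqS
  have hle1 : F₁ ≤ L := le_sup_left.trans le_sup_left
  have hle2 : F₂ ≤ L := le_sup_right.trans le_sup_left
  have hζL : ζ ∈ L :=
    (le_sup_right : F₃ ≤ L) (IntermediateField.mem_adjoin_simple_self ℚ ζ)
  have hfix : ∀ {g h : GQ} {E : IntermediateField ℚ (AlgebraicClosure ℚ)}, E ≤ L →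
      (∀ x ∈ L, g x = h x) → h⁻¹ * g ∈ E.fixingSubgroup := by
    intro g h E hE e
    rw [IntermediateField.mem_fixingSubgroup_iff]
    intro x hx
    rw [AlgEquiv.mul_apply, e x (hE hx)]
    exact h.symm_apply_apply x
  have hrbeq : ∀ {g h : GQ}, (∀ x ∈ L, g x = h x) → rb g = rb h := fun {g h} e => by
    rw [← mul_inv_cancel_left h g, map_mul, hF₁rb _ (hfix hle1 e), mul_one]
  have hyeq : ∀ {g h : GQ}, (∀ x ∈ L, g x = h x) → y g = y h := fun {g h} e => by
    have h1 := hF₂y h _ (hfix hle2 e)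
    rwa [mul_inv_cancel_left] at h1
  have hunr : ∀ P : ValuationSubring (AlgebraicClosure ℚ), P.LiesOverPrime q →
      ∀ τ ∈ P.inertiaSubgroupIn ℚ, rb τ = 1 := fun P hP τ hτ =>
    hF₁rb τ ((IntermediateField.mem_fixingSubgroup_iff _ _).2 fun x hx =>
      hI P hP τ hτ x (hle1 hx))
  have hφdisc : disc2 (rb φ) ≠ 0 := fun h => by
    have h2 := disc2_pow_eq_zero h a
    rw [← map_pow, ← hrbeq ha, disc2, hdet, mul_one, sub_eq_zero] at h2
    exact hdisc h2
  refine ⟨q, hqS.2.2, ⟨hq, hqS.2.1, ?_, hunr, fun P hP ψ hψ => ?_⟩, A, hA, φ, hφ, ?_⟩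
  · have hqp : ¬ q ∣ p ^ (n + 1) := fun h =>
      hqS.1 ((Nat.prime_dvd_prime_iff_eq hq hp).1 (hq.dvd_of_dvd_pow h))
    have h1 := frobenius_apply_of_pow_eq_one hA hq hqp hφ hζ.pow_eq_one
    have hfixζ : ∀ i : ℕ, (σ ^ i) ζ = ζ := fun i => by
      induction i with
      | zero => rfl
      | succ i ih => rw [pow_succ, AlgEquiv.mul_apply, hσζ ζ hζ.pow_eq_one, ih]
    rw [hj ζ hζL, hfixζ] at h1
    rw [← hζ.pow_eq_one_iff_dvd]
    refine mul_left_cancel₀ (hζ.ne_zero (NeZero.ne _)) ?_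
    rw [mul_one, ← pow_succ', Nat.sub_add_cancel hq.pos, ← h1]
  · obtain ⟨g, hg⟩ := Chebotarev.exists_map_frobenius_conj rb hq hunr hA hP hφ hψ
    have hgu : IsUnit (rb g) := IsUnit.of_mul_eq_one (rb g⁻¹)
      (by rw [← map_mul, mul_inv_cancel, map_one])
    obtain ⟨U, hU⟩ := hgu
    have hUi : rb g⁻¹ = ((U⁻¹ : (Mat2 k)ˣ) : Mat2 k) := by
      refine (Units.inv_eq_of_mul_eq_one_right ?_).symm
      rw [hU, ← map_mul, mul_inv_cancel, map_one]
    rw [hg, map_mul, map_mul, ← hU, hUi, disc2_conj]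
    exact hφdisc
  · rintro ⟨X, hX⟩
    refine hne (trace_mul_eq_zero_of_trivial rb (X := X) hdet ?_)
    have h := trivialAt_pow rb hy hX a
    rw [← hyeq ha, ← hrbeq ha] at h
    have hinv : rb (φ ^ a)⁻¹ = rb σ⁻¹ := by
      have e : rb (φ ^ a)⁻¹ * (rb σ * rb σ⁻¹) = rb (φ ^ a)⁻¹ := by
        rw [← map_mul, mul_inv_cancel, map_one, mul_one]
      rw [← e, hrbeq ha, ← mul_assoc, ← map_mul, inv_mul_cancel, map_one, one_mul]
    rwa [hinv] at h

end Fermat.Agent.TWAssembly
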