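import Mathlib.LinearAlgebra.Dual.Lemmas
import Mathlib.LinearAlgebra.Dimension.DivisionRing
import Mathlib.LinearAlgebra.FiniteDimensional.Lemmas
import Mathlib.LinearAlgebra.FreeModule.Finite.Matrix

/-!
# Choosing indices which detect a finite-dimensional space

`exists_detecting_family`: if every nonzero vector of an `r`-dimensional space lies outside `K q`
for infinitely many good indices `q`, then `r` distinct good indices have subspaces `K q` with
trivial intersection.
-/

set_option autoImplicit false

open Module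

namespace Fermat.Agent.TWAssembly

/-- Choice of auxiliary primes: if every nonzero element of a space `D` of dimension at most `r`
is detected by infinitely many good indices, then `r` distinct good indices outside any finite
set detect all of it. -/
theorem exists_detecting_family {F D : Type*} [Field F] [AddCommGroup D] [Module F D]
    [FiniteDimensional F D] {ι : Type*} (good : ι → Prop) (K : ι → Submodule F D)
    (hne : ∀ S : Finset ι, ∃ q, q ∉ S ∧ good q)
    (hdet : ∀ y : D, y ≠ 0 → ∀ S : Finset ι, ∃ q, q ∉ S ∧ good q ∧ y ∉ K q)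
    {r : ℕ} (hr : finrank F D ≤ r) (S : Finset ι) :
    ∃ qv : Fin r → ι, Function.Injective qv ∧ (∀ i, good (qv i) ∧ qv i ∉ S) ∧
      ⨅ i, K (qv i) = ⊥ := by
  classical
  suffices h : ∀ r : ℕ, ∃ qv : Fin r → ι, Function.Injective qv ∧
      (∀ i, good (qv i) ∧ qv i ∉ S) ∧ finrank F (⨅ i, K (qv i) : Submodule F D) ≤
        finrank F D - r by
    obtain ⟨qv, h1, h2, h3⟩ := h r
    refine ⟨qv, h1, h2, Submodule.finrank_eq_zero.1 ?_⟩
    omega
  intro r
  induction r with
  | zero => exact ⟨Fin.elim0, fun i => i.elim0, fun i => i.elim0, Submodule.finrank_le _⟩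
  | succ r ih =>
    obtain ⟨qv, h1, h2, h3⟩ := ih
    set I := ⨅ i, K (qv i) with hI
    let T := S ∪ Finset.univ.image qv
    obtain ⟨q, hqT, hqg, hqI⟩ : ∃ q, q ∉ T ∧ good q ∧
        (finrank F (I ⊓ K q : Submodule F D) ≤ finrank F D - (r + 1)) := by
      by_cases hbot : I = ⊥
      · obtain ⟨q, hq, hg⟩ := hne T
        refine ⟨q, hq, hg, ?_⟩
        rw [hbot, bot_inf_eq]
        simp
      · obtain ⟨y, hyI, hy⟩ := Submodule.exists_mem_ne_zero_of_ne_bot hbot
        obtain ⟨q, hq, hg, hyK⟩ := hdet y hy T
        refine ⟨q, hq, hg, ?_⟩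
        have hlt : I ⊓ K q < I := lt_of_le_of_ne inf_le_left fun h =>
          hyK ((h.ge.trans inf_le_right) hyI)
        have := Submodule.finrank_lt_finrank_of_lt hlt
        omega
    simp only [T, Finset.mem_union, Finset.mem_image, Finset.mem_univ, true_and, not_or,
      not_exists] at hqT
    refine ⟨Fin.snoc qv q, Fin.snoc_injective_of_injective h1 (by
      rintro ⟨i, hi⟩; exact hqT.2 i hi), fun i => ?_, ?_⟩
    · refine Fin.lastCases ?_ (fun j => ?_) i
      · rw [Fin.snoc_last]; exact ⟨hqg, hqT.1⟩
      · rw [Fin.snoc_castSucc]; exact h2 j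
    · refine le_trans (Submodule.finrank_mono ?_) hqI
      rw [hI]
      refine le_inf (le_iInf fun j => ?_) ?_
      · exact (iInf_le _ (Fin.castSucc j)).trans_eq (by rw [Fin.snoc_castSucc])
      · exact (iInf_le _ (Fin.last r)).trans_eq (by rw [Fin.snoc_last])

end Fermat.Agent.TWAssembly
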