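import Fermat.Agent.TWAssembly.Selmer
import Fermat.Agent.TWAssembly.Counting
import Fermat.Agent.TWAssembly.GoodPrimes
import Fermat.Agent.TWAssembly.BaseChange
import Mathlib.RingTheory.MvPowerSeries.Basic

/-!
# Assembly of the Taylor–Wiles primes

`TWElementProp` is the group theoretic input: every class of `H¹(ℚ, ad⁰ ρ̄ (1))` is detected by a
Galois element fixing `ζ_{p^(n+1)}` whose image has distinct eigenvalues. `GlobalBoundProp` is the
global input: good primes detecting all dual classes bound the Selmer group with ramification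
allowed at them by their number. `exists_taylorWiles_half` deduces that there is an `r` such that,
for every `n`, there are `r` primes congruent to `1` modulo `p^(n+1)`, with distinct Frobenius
eigenvalues, at which the deformation ring is a quotient of `𝒪⟦X₁,…,X_r⟧`.
-/

set_option autoImplicit false

open IsLocalRing Module Polynomial
open Fermat.Agent.TangentBound

namespace Fermat.Agent.TWAssembly

section Classes

variable {k : Type} [Field k] (rb : GQ →* Mat2 k)

/-- Continuous trace-zero cocycles for the twisted adjoint action `det(rb) · Ad rb`. -/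
noncomputable def twCocycles : Submodule k (GQ → Mat2 k) where
  carrier := {y | (∀ σ τ, y (σ * τ) = y σ + (rb σ).det • (rb σ * y τ * rb σ⁻¹)) ∧
    (∀ σ, (y σ).trace = 0) ∧
    ∃ F : IntermediateField ℚ (AlgebraicClosure ℚ), FiniteDimensional ℚ F ∧
      ∀ σ, ∀ τ ∈ F.fixingSubgroup, y (σ * τ) = y σ}
  add_mem' := by
    rintro c e ⟨hc, hct, F, hF, hcF⟩ ⟨he, het, F', hF', heF⟩
    refine ⟨fun σ τ => ?_, fun σ => by rw [Pi.add_apply, Matrix.trace_add, hct, het, add_zero],
      F ⊔ F', inferInstance, fun σ τ hτ => ?_⟩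
    · simp only [Pi.add_apply, hc σ τ, he σ τ, mul_add, add_mul, smul_add]
      abel
    · simp only [Pi.add_apply]
      rw [hcF σ τ (IntermediateField.fixingSubgroup_antitone le_sup_left hτ),
        heF σ τ (IntermediateField.fixingSubgroup_antitone le_sup_right hτ)]
  zero_mem' := ⟨fun σ τ => by simp, fun σ => by simp, ⊥, inferInstance, fun σ τ _ => rfl⟩
  smul_mem' := by
    rintro a c ⟨hc, hct, F, hF, hcF⟩
    refine ⟨fun σ τ => ?_, fun σ => by rw [Pi.smul_apply, Matrix.trace_smul, hct, smul_zero],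
      F, hF, fun σ τ hτ => by simp only [Pi.smul_apply, hcF σ τ hτ]⟩
    simp only [Pi.smul_apply, hc σ τ, smul_add, mul_smul_comm, smul_mul_assoc,
      smul_comm (rb σ).det a]

/-- The classes of `D` trivial at every Frobenius element over `q`. -/
noncomputable def detectKer (D : Submodule k (GQ → Mat2 k)) (q : ℕ) : Submodule k D where
  carrier := {y | ∀ P : ValuationSubring (AlgebraicClosure ℚ), P.LiesOverPrime q →
    ∀ φ : GQ, P.IsFrobeniusAt φ q → TrivialAt rb (y : GQ → Mat2 k) φ}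
  add_mem' := by
    intro x y hx hy P hP φ hφ
    obtain ⟨X, hX⟩ := hx P hP φ hφ
    obtain ⟨Y, hY⟩ := hy P hP φ hφ
    refine ⟨X + Y, ?_⟩
    rw [Submodule.coe_add, Pi.add_apply, hX, hY, mul_add, add_mul, smul_add]
    abel
  zero_mem' := fun P hP φ hφ => ⟨0, by simp⟩
  smul_mem' := by
    intro a x hx P hP φ hφ
    obtain ⟨X, hX⟩ := hx P hP φ hφ
    refine ⟨a • X, ?_⟩
    rw [Submodule.coe_smul, Pi.smul_apply, hX, smul_sub, mul_smul_comm, smul_mul_assoc, smul_comm]

/-- Membership of the kernel of detection at `q`. -/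
theorem mem_detectKer_iff {D : Submodule k (GQ → Mat2 k)} {q : ℕ} {y : D} :
    y ∈ detectKer rb D q ↔ ∀ P : ValuationSubring (AlgebraicClosure ℚ), P.LiesOverPrime q →
      ∀ φ : GQ, P.IsFrobeniusAt φ q → TrivialAt rb (y : GQ → Mat2 k) φ :=
  Iff.rfl

/-- The group theoretic input: a class that is not a coboundary is non-trivial at some element
fixing `ζ_{p^(n+1)}` with distinct eigenvalues. -/
def TWElementProp (p : ℕ) : Prop :=
  ∀ y ∈ twCocycles rb,
    (¬ ∃ X : Mat2 k, X.trace = 0 ∧ ∀ σ, y σ = (rb σ).det • (rb σ * X * rb σ⁻¹) - X) →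
    ∀ n : ℕ, ∃ σ : GQ,
      (∀ μ : AlgebraicClosure ℚ, μ ^ p ^ (n + 1) = 1 → σ μ = μ) ∧
        (rb σ).det = 1 ∧ (rb σ).trace ^ 2 ≠ 4 ∧ (y σ * rb σ).trace ≠ 0

/-- The global input: a finite dimensional space `D` of twisted classes such that good primes
detecting all of `D` bound the Selmer group with ramification allowed at them by their number. -/
def GlobalBoundProp (p : ℕ) [Fact p.Prime] (S Smin : Finset ℕ)
    (L : (q : ℕ) → (P : ValuationSubring (AlgebraicClosure ℚ)) →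
      Submodule k (P.decompositionSubgroup ℚ → Mat2 k)) : Prop :=
  ∃ D : Submodule k (GQ → Mat2 k), FiniteDimensional k D ∧ D ≤ twCocycles rb ∧
    (∀ y ∈ D, (∃ X : Mat2 k, X.trace = 0 ∧
      ∀ σ, y σ = (rb σ).det • (rb σ * X * rb σ⁻¹) - X) → y = 0) ∧
    ∀ (n : ℕ) (Q : Finset ℕ), (∀ q ∈ Q, GoodPrime rb p S n q) →
      (∀ y : D, (∀ q ∈ Q, y ∈ detectKer rb D q) → y = 0) → finrank k D ≤ Q.card →
      FiniteDimensional k
          ((selmer rb (Smin ∪ Q) Smin L).map (LinearMap.range (adCoboundary rb)).mkQ) ∧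
        finrank k ((selmer rb (Smin ∪ Q) Smin L).map (LinearMap.range (adCoboundary rb)).mkQ) ≤
          Q.card

open scoped Classical in
/-- Good primes, as many as the dimension of `D`, detecting all of `D`. -/
theorem exists_goodPrimes_detecting (p : ℕ) [Fact p.Prime] (S : Finset ℕ) (n : ℕ)
    (hTW : TWElementProp rb p)
    (hrbc : ∃ F : IntermediateField ℚ (AlgebraicClosure ℚ), FiniteDimensional ℚ F ∧
      ∀ σ ∈ F.fixingSubgroup, rb σ = 1)
    (D : Submodule k (GQ → Mat2 k)) [FiniteDimensional k D] (hDle : D ≤ twCocycles rb)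
    (hDcob : ∀ y ∈ D, (∃ X : Mat2 k, X.trace = 0 ∧
      ∀ σ, y σ = (rb σ).det • (rb σ * X * rb σ⁻¹) - X) → y = 0) :
    ∃ qv : Fin (finrank k D) → ℕ, Function.Injective qv ∧ (∀ i, GoodPrime rb p S n (qv i)) ∧
      (Finset.univ.image qv).card = finrank k D ∧
      ∀ y : D, (∀ q ∈ Finset.univ.image qv, y ∈ detectKer rb D q) → y = 0 := by
  have hdetect : ∀ y : D, y ≠ 0 → ∀ T : Finset ℕ,
      ∃ q, q ∉ T ∧ GoodPrime rb p S n q ∧ y ∉ detectKer rb D q := by
    intro y hy T
    obtain ⟨σ, h1, h2, h3, h4⟩ := hTW y (hDle y.2)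
      (fun hX => hy (Subtype.ext (hDcob y y.2 hX))) n
    obtain ⟨q, hqT, hq, P, hP, φ, hφ, hyφ⟩ := exists_goodPrime_detecting rb p S n hrbc
      (hDle y.2).1 (hDle y.2).2.2 h1 h2 h3 h4 T
    exact ⟨q, hqT, hq, fun hmem' => hyφ (mem_detectKer_iff rb |>.1 hmem' P hP φ hφ)⟩
  obtain ⟨qv, hinj, hgood, hker⟩ : ∃ qv : Fin (finrank k D) → ℕ,
      Function.Injective qv ∧ (∀ i, GoodPrime rb p S n (qv i)) ∧
      ⨅ i, detectKer rb D (qv i) = ⊥ := by
    by_cases h0 : finrank k D = 0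
    · have : IsEmpty (Fin (finrank k D)) := by rw [h0]; infer_instance
      have : Subsingleton D := Module.finrank_zero_iff.1 h0
      exact ⟨isEmptyElim, fun i => isEmptyElim i, fun i => isEmptyElim i,
        Subsingleton.elim _ _⟩
    · obtain ⟨y, hy⟩ : ∃ y : D, y ≠ 0 := by
        by_contra h
        push Not at h
        have : Subsingleton D := ⟨fun a c => (h a).trans (h c).symm⟩
        exact h0 (Module.finrank_zero_of_subsingleton)
      obtain ⟨qv, h1, h2, h3⟩ := exists_detecting_family (GoodPrime rb p S n)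
        (detectKer rb D)
        (fun T => let ⟨q, hq, hg, _⟩ := hdetect y hy T; ⟨q, hq, hg⟩)
        hdetect le_rfl (∅ : Finset ℕ)
      exact ⟨qv, h1, fun i => (h2 i).1, h3⟩
  refine ⟨qv, hinj, hgood,
    by rw [Finset.card_image_of_injective _ hinj, Finset.card_univ, Fintype.card_fin],
    fun y hy => ?_⟩
  have : y ∈ ⨅ i, detectKer rb D (qv i) := by
    rw [Submodule.mem_iInf]
    exact fun i => hy _ (Finset.mem_image_of_mem _ (Finset.mem_univ i))
  rwa [hker, Submodule.mem_bot] at this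

end Classes

section Assembly

variable {𝒪 : Type} [CommRing 𝒪] [IsDomain 𝒪] [IsDiscreteValuationRing 𝒪]
  [IsAdicComplete (maximalIdeal 𝒪) 𝒪] (ρbar : ResidualGaloisRep (ResidueField 𝒪))

/-- `ρ̄` as a matrix valued homomorphism in a basis. -/
noncomputable def rbOf (b : Basis (Fin 2) (ResidueField 𝒪) ρbar.V) :
    GQ →* Mat2 (ResidueField 𝒪) where
  toFun σ := LinearMap.toMatrix b b (ρbar.ρ σ)
  map_one' := by rw [map_one]; exact LinearMap.toMatrix_one _
  map_mul' σ τ := by rw [map_mul]; exact LinearMap.toMatrix_mul _ _ _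

omit [IsAdicComplete (maximalIdeal 𝒪) 𝒪] in
/-- `rbOf` is the matrix of `ρbar` in the basis `b`. -/
theorem rbOf_apply (b : Basis (Fin 2) (ResidueField 𝒪) ρbar.V) (σ : GQ) :
    rbOf ρbar b σ = LinearMap.toMatrix b b (ρbar.ρ σ) := rfl

/-- A split endomorphism of nonzero discriminant has distinct eigenvalues. -/
theorem exists_distinct_roots {k : Type} [Field k] {V : Type} [AddCommGroup V] [Module k V]
    [Module.Finite k V] (b : Basis (Fin 2) k V) (f : Module.End k V)
    (hsplit : ∃ α β : k, f.charpoly = (X - C α) * (X - C β))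
    (hd : disc2 (LinearMap.toMatrix b b f) ≠ 0) :
    ∃ α β : k, α ≠ β ∧ f.charpoly = (X - C α) * (X - C β) := by
  obtain ⟨α, β, h⟩ := hsplit
  refine ⟨α, β, ?_, h⟩
  rintro rfl
  have hc : (LinearMap.toMatrix b b f).charpoly = (X - C α) * (X - C α) := by
    rw [LinearMap.charpoly_toMatrix, h]
  have h0 := congrArg (fun P : k[X] => P.coeff 0) hc
  have h1 := congrArg (fun P : k[X] => P.coeff 1) hc
  rw [Matrix.charpoly_fin_two] at h0 h1
  simp [Polynomial.coeff_X, mul_sub, sub_mul, Polynomial.coeff_X_pow] at h0 h1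
  refine hd ?_
  rw [disc2]
  rw [← LinearMap.det_toMatrix b] at h0
  linear_combination (-4 : k) * h0 + (-((LinearMap.toMatrix b b f).trace) - 2 * α) * h1

/-- One half of the Taylor-Wiles statement, for a family `C` of conditions indexed by the allowed
ramification set. -/
theorem exists_taylorWiles_half (p : ℕ) [Fact p.Prime]
    (hsplit : ∀ σ : GQ,
      ∃ α β : ResidueField 𝒪, LinearMap.charpoly (ρbar.ρ σ) = (X - C α) * (X - C β))
    (S Smin : Finset ℕ)
    (C' : Finset ℕ → ∀ ⦃A : Type⦄ [CommRing A] [IsLocalRing A] [Algebra 𝒪 A],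
      GaloisRepAdic A → Prop)
    (hdet : ∀ (T : Finset ℕ) (A : Type) [CommRing A] [IsLocalRing A] [Algebra 𝒪 A]
      (ρ : GaloisRepAdic A), C' T ρ → ρ.DetIsCyclotomic p)
    (hunr : ∀ (T : Finset ℕ) (A : Type) [CommRing A] [IsLocalRing A] [Algebra 𝒪 A]
      (ρ : GaloisRepAdic A), C' T ρ → ∀ q : ℕ, q.Prime → q ∉ T → ρ.IsUnramifiedAt q)
    (hbc : ∀ (T : Finset ℕ) (A B : Type) [CommRing A] [IsLocalRing A] [Algebra 𝒪 A]
      [CommRing B] [IsLocalRing B] [Algebra 𝒪 B] (φ : A →ₐ[𝒪] B)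
      (hφ : IsLocalHom (φ : A →+* B)) (ρ : GaloisRepAdic A), Function.Surjective φ → C' T ρ →
        C' T (ρ.baseChangeAlong (φ : A →+* B) hφ))
    (b : Basis (Fin 2) (ResidueField 𝒪) ρbar.V)
    (hTW : TWElementProp (rbOf ρbar b) p)
    (L : (q : ℕ) → (P : ValuationSubring (AlgebraicClosure ℚ)) →
      Submodule (ResidueField 𝒪) (P.decompositionSubgroup ℚ → Mat2 (ResidueField 𝒪)))
    (hrbc : ∃ F : IntermediateField ℚ (AlgebraicClosure ℚ), FiniteDimensional ℚ F ∧
      ∀ σ ∈ F.fixingSubgroup, rbOf ρbar b σ = 1)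
    (hmem : ∀ (T : Finset ℕ) (DQ : GaloisRep.DeformationRingData 𝒪 ρbar (fun _A _ _ _ ρ =>
          C' T ρ ∧ ∀ q ∈ Smin, q.Prime → q ≠ p → ρ.IsUnipotentOnInertiaAt q))
        (V : (Mat2 (ResidueField 𝒪))ˣ),
        (∀ σ, (V : Mat2 (ResidueField 𝒪)) * barMat DQ σ = rbOf ρbar b σ * V) →
        ∀ d, ∀ q ∈ Smin, ∀ P : ValuationSubring (AlgebraicClosure ℚ), P.LiesOverPrime q →
          resPlace P (conjMap V (tangentCocycle DQ d)) ∈ L q P)
    (hbound : GlobalBoundProp (rbOf ρbar b) p S Smin L) :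
    ∃ r : ℕ, ∀ n : ℕ, ∃ qv : Fin r → ℕ, Function.Injective qv ∧
      (∀ i, (qv i).Prime ∧ qv i ∉ S ∧ p ^ (n + 1) ∣ qv i - 1) ∧
      (∀ i, ∀ P : ValuationSubring (AlgebraicClosure ℚ), P.LiesOverPrime (qv i) →
        ∀ φ : AlgebraicClosure ℚ ≃ₐ[ℚ] AlgebraicClosure ℚ, P.IsFrobeniusAt φ (qv i) →
          ∃ α β : ResidueField 𝒪, α ≠ β ∧ LinearMap.charpoly (ρbar.ρ φ) = (X - C α) * (X - C β)) ∧
      ∀ DQ : GaloisRep.DeformationRingData 𝒪 ρbar (fun _A _ _ _ ρ =>
          C' (Smin ∪ Finset.univ.image qv) ρ ∧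
            ∀ q ∈ Smin, q.Prime → q ≠ p → ρ.IsUnipotentOnInertiaAt q),
        ∃ γ : MvPowerSeries (Fin r) 𝒪 →ₐ[𝒪] DQ.R, Function.Surjective γ := by
  classical
  obtain ⟨D, hDfin, hDle, hDcob, hD⟩ := hbound
  refine ⟨finrank (ResidueField 𝒪) D, fun n => ?_⟩
  set rb := rbOf ρbar b with hrb
  obtain ⟨qv, hinj, hgood, hcard, hker⟩ :=
    exists_goodPrimes_detecting rb p S n hTW hrbc D hDle hDcob
  refine ⟨qv, hinj, fun i => ⟨(hgood i).1, (hgood i).2.1, (hgood i).2.2.1⟩,
    fun i P hP φ hφ => exists_distinct_roots b _ (hsplit φ) ((hgood i).2.2.2.2 P hP φ hφ),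
    fun DQ => ?_⟩
  obtain ⟨V, hV⟩ := exists_units_barMat DQ b
  obtain ⟨hfin, hle⟩ := hD n (Finset.univ.image qv) (fun q hq => by
      obtain ⟨i, -, rfl⟩ := Finset.mem_image.1 hq
      exact hgood i) hker hcard.ge
  refine exists_surjective_of_selmer_le DQ rb V
    (fun φ hφ hsurj => ⟨hbc _ _ _ φ hφ _ hsurj DQ.isOfType.1,
      fun q hq hqp hqne => isUnipotentOnInertiaAt_baseChange _ hφ
        (DQ.isOfType.2 q hq hqp hqne)⟩)
    (fun σ => by rw [hrb, rbOf_apply]; exact hV σ) 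
    (selmer rb (Smin ∪ (Finset.univ.image qv)) Smin L) (fun d => ?_) (hle.trans hcard.le)
  refine (mem_selmer_iff rb).2 ⟨conjMap_tangentCocycle_mem_adCocycles DQ rb V
    (fun σ => by rw [hrb, rbOf_apply]; exact hV σ) p
    (hdet _ _ _ DQ.isOfType.1) d, fun q hq hqT P hP σ hσ => ?_,
    fun q hq P hP => hmem _ DQ V (fun σ => by rw [rbOf_apply]; exact hV σ) d q hq P hP⟩
  rw [conjMap_apply, tangentCocycle_eq_zero_of_rho_eq_one DQ d
    (hunr _ _ _ DQ.isOfType.1 q hq hqT P hP σ hσ), mul_zero, zero_mul]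

end Assembly

end Fermat.Agent.TWAssembly
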