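import Fermat.Agent.TangentBound.Cocycle
import Fermat.Agent.TangentBound.Trace

/-!
# Selmer groups of the adjoint representation on the level of cocycles

Cocycles with values in trace zero matrices, the Selmer condition, and
`exists_surjective_of_selmer_le`: if the classes of the tangent cocycles of a deformation ring span
at most an `r`-dimensional space, the ring is a quotient of `𝒪⟦X₁,…,X_r⟧`.
-/

set_option autoImplicit false

open IsLocalRing Module
open Fermat.Agent.TangentBound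

namespace Fermat.Agent.TWAssembly

section Cocycles

variable {k : Type} [Field k] (rb : GQ →* Mat2 k)

/-- Continuous trace-zero cocycles for the adjoint action of `rb`. -/
noncomputable def adCocycles : Submodule k (GQ → Mat2 k) where
  carrier := {c | (∀ σ τ, c (σ * τ) = c σ + rb σ * c τ * rb σ⁻¹) ∧ (∀ σ, (c σ).trace = 0) ∧
    ∃ F : IntermediateField ℚ (AlgebraicClosure ℚ), FiniteDimensional ℚ F ∧
      ∀ σ, ∀ τ ∈ F.fixingSubgroup, c (σ * τ) = c σ}
  add_mem' := by
    rintro c e ⟨hc, hct, F, hF, hcF⟩ ⟨he, het, F', hF', heF⟩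
    refine ⟨fun σ τ => ?_, fun σ => by rw [Pi.add_apply, Matrix.trace_add, hct, het, add_zero],
      F ⊔ F', inferInstance, fun σ τ hτ => ?_⟩
    · simp only [Pi.add_apply, hc σ τ, he σ τ, mul_add, add_mul]
      abel
    · simp only [Pi.add_apply]
      rw [hcF σ τ (IntermediateField.fixingSubgroup_antitone le_sup_left hτ),
        heF σ τ (IntermediateField.fixingSubgroup_antitone le_sup_right hτ)]
  zero_mem' := ⟨fun σ τ => by simp, fun σ => by simp, ⊥, inferInstance, fun σ τ _ => rfl⟩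
  smul_mem' := by
    rintro a c ⟨hc, hct, F, hF, hcF⟩
    refine ⟨fun σ τ => ?_, fun σ => by rw [Pi.smul_apply, Matrix.trace_smul, hct, smul_zero],
      F, hF, fun σ τ hτ => by simp only [Pi.smul_apply, hcF σ τ hτ]⟩
    simp only [Pi.smul_apply, hc σ τ, smul_add, mul_smul_comm, smul_mul_assoc]

/-- The coboundary map for the adjoint action of `rb`. -/
noncomputable def adCoboundary : Mat2 k →ₗ[k] GQ → Mat2 k where
  toFun X σ := X - rb σ * X * rb σ⁻¹
  map_add' X Y := by funext σ; simp only [Pi.add_apply, mul_add, add_mul]; abel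
  map_smul' a X := by
    funext σ
    simp only [Pi.smul_apply, RingHom.id_apply, mul_smul_comm, smul_mul_assoc, smul_sub]

/-- The value of a coboundary. -/
theorem adCoboundary_apply (X : Mat2 k) (σ : GQ) :
    adCoboundary rb X σ = X - rb σ * X * rb σ⁻¹ := rfl

/-- Restriction of a function on the Galois group to a decomposition group. -/
def resPlace (P : ValuationSubring (AlgebraicClosure ℚ)) :
    (GQ → Mat2 k) →ₗ[k] (P.decompositionSubgroup ℚ → Mat2 k) where
  toFun c σ := c σ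
  map_add' _ _ := rfl
  map_smul' _ _ := rfl

/-- Cocycles unramified outside `T` satisfying the conditions `L` at the places over `S₀`. -/
noncomputable def selmer (T S₀ : Finset ℕ)
    (L : (q : ℕ) → (P : ValuationSubring (AlgebraicClosure ℚ)) →
      Submodule k (P.decompositionSubgroup ℚ → Mat2 k)) :
    Submodule k (GQ → Mat2 k) where
  carrier := {c | c ∈ adCocycles rb ∧
    (∀ q : ℕ, q.Prime → q ∉ T → ∀ P : ValuationSubring (AlgebraicClosure ℚ),
      P.LiesOverPrime q → ∀ σ ∈ P.inertiaSubgroupIn ℚ, c σ = 0) ∧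
    ∀ q ∈ S₀, ∀ P : ValuationSubring (AlgebraicClosure ℚ),
      P.LiesOverPrime q → resPlace P c ∈ L q P}
  add_mem' := fun ⟨h1, h2, h3⟩ ⟨e1, e2, e3⟩ => ⟨add_mem h1 e1,
    fun q hq hqT P hP σ hσ => by
      rw [Pi.add_apply, h2 q hq hqT P hP σ hσ, e2 q hq hqT P hP σ hσ, add_zero],
    fun q hq P hP => by rw [map_add]; exact add_mem (h3 q hq P hP) (e3 q hq P hP)⟩
  zero_mem' := ⟨zero_mem _, fun _ _ _ _ _ _ _ => rfl,
    fun q hq P hP => by rw [map_zero]; exact zero_mem _⟩
  smul_mem' := fun a _ ⟨h1, h2, h3⟩ => ⟨Submodule.smul_mem _ a h1,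
    fun q hq hqT P hP σ hσ => by rw [Pi.smul_apply, h2 q hq hqT P hP σ hσ, smul_zero],
    fun q hq P hP => by rw [map_smul]; exact Submodule.smul_mem _ a (h3 q hq P hP)⟩

/-- The conditions cutting out the Selmer space. -/
theorem mem_selmer_iff {T S₀ : Finset ℕ}
    {L : (q : ℕ) → (P : ValuationSubring (AlgebraicClosure ℚ)) →
      Submodule k (P.decompositionSubgroup ℚ → Mat2 k)} {c : GQ → Mat2 k} :
    c ∈ selmer rb T S₀ L ↔ c ∈ adCocycles rb ∧
      (∀ q : ℕ, q.Prime → q ∉ T → ∀ P : ValuationSubring (AlgebraicClosure ℚ),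
        P.LiesOverPrime q → ∀ σ ∈ P.inertiaSubgroupIn ℚ, c σ = 0) ∧
      ∀ q ∈ S₀, ∀ P : ValuationSubring (AlgebraicClosure ℚ),
        P.LiesOverPrime q → resPlace P c ∈ L q P :=
  Iff.rfl

/-- Conjugation of matrix valued functions by a fixed invertible matrix. -/
noncomputable def conjMap (V : (Mat2 k)ˣ) : (GQ → Mat2 k) →ₗ[k] GQ → Mat2 k where
  toFun c σ := (V : Mat2 k) * c σ * ((V⁻¹ : (Mat2 k)ˣ) : Mat2 k)
  map_add' c e := by funext σ; simp only [Pi.add_apply, mul_add, add_mul]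
  map_smul' a c := by
    funext σ
    simp only [Pi.smul_apply, RingHom.id_apply, mul_smul_comm, smul_mul_assoc]

/-- Conjugation of a cochain, pointwise. -/
theorem conjMap_apply (V : (Mat2 k)ˣ) (c : GQ → Mat2 k) (σ : GQ) :
    conjMap V c σ = (V : Mat2 k) * c σ * ((V⁻¹ : (Mat2 k)ˣ) : Mat2 k) := rfl

end Cocycles

section Deformation

variable {𝒪 : Type} [CommRing 𝒪] [IsDomain 𝒪] [IsDiscreteValuationRing 𝒪]
  [IsAdicComplete (maximalIdeal 𝒪) 𝒪]
  {ρbar : ResidualGaloisRep (ResidueField 𝒪)}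
  {𝒟 : ∀ ⦃A : Type⦄ [CommRing A] [IsLocalRing A] [Algebra 𝒪 A], GaloisRepAdic A → Prop}
  (DQ : GaloisRep.DeformationRingData 𝒪 ρbar 𝒟)

/-- A fixed matrix form of `ρ̄` is conjugate to the reduction of the universal matrix. -/
theorem exists_units_barMat (b : Basis (Fin 2) (ResidueField 𝒪) ρbar.V) :
    ∃ V : (Mat2 (ResidueField 𝒪))ˣ, ∀ σ,
      (V : Mat2 (ResidueField 𝒪)) * barMat DQ σ = LinearMap.toMatrix b b (ρbar.ρ σ) * V := by
  obtain ⟨c, hc⟩ := exists_basis_barMat DQ
  obtain ⟨V, hV⟩ := exists_units_conj c b (LinearEquiv.refl _ ρbar.V)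
  exact ⟨V, fun σ => by rw [← hc σ]; exact hV _ _ fun x => rfl⟩

theorem univMat_eq_one {σ : GQ} (h : DQ.ρ.ρ σ = 1) : univMat DQ σ = 1 := by
  show LinearMap.toMatrix (univBasis DQ) (univBasis DQ) (DQ.ρ.ρ σ) = 1
  rw [h]
  exact LinearMap.toMatrix_one _

/-- The tangent cocycle vanishes where the deformation is trivial. -/
theorem tangentCocycle_eq_zero_of_rho_eq_one (d : derSpace DQ.residue_surjective) {σ : GQ}
    (h : DQ.ρ.ρ σ = 1) : tangentCocycle DQ d σ = 0 := by
  have h0 : (univMat DQ σ).map (d : DQ.R →ₗ[𝒪] ResidueField 𝒪) = 0 := by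
    rw [univMat_eq_one DQ h]
    ext i j
    rw [Matrix.map_apply, Matrix.one_apply]
    split <;> simp [derSpace_apply_one]
  rw [tangentCocycle_apply, h0, zero_mul]

theorem tangentCocycle_levelConstant (d : derSpace DQ.residue_surjective) :
    ∃ F : IntermediateField ℚ (AlgebraicClosure ℚ), FiniteDimensional ℚ F ∧
      ∀ σ, ∀ τ ∈ F.fixingSubgroup, tangentCocycle DQ d (σ * τ) = tangentCocycle DQ d σ := by
  obtain ⟨F, hF, h⟩ := DQ.ρ.isAdicContinuous 2
  refine ⟨F, hF, fun σ τ hτ => ?_⟩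
  have hd2 : ∀ x ∈ maximalIdeal DQ.R ^ 2, (d : DQ.R →ₗ[𝒪] ResidueField 𝒪) x = 0 := by
    intro x hx
    rw [sq] at hx
    refine Submodule.mul_induction_on hx (fun u hu v hv => ?_) fun u v hu hv => ?_
    · rw [d.2, (resK_eq_zero_iff _ u).2 hu, (resK_eq_zero_iff _ v).2 hv, zero_mul, zero_mul,
        add_zero]
    · rw [map_add, hu, hv, add_zero]
  have h0 : (univMat DQ τ).map (d : DQ.R →ₗ[𝒪] ResidueField 𝒪) = 0 := by
    ext i j
    have hv := h τ ((IntermediateField.mem_fixingSubgroup_iff F τ).1 hτ) (univBasis DQ j)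
    have hv : ∀ i, (univBasis DQ).repr (DQ.ρ.ρ τ (univBasis DQ j) - univBasis DQ j) i ∈
        maximalIdeal DQ.R ^ 2 := fun i => by
      refine Submodule.smul_induction_on (p := fun x => (univBasis DQ).repr x i ∈
        maximalIdeal DQ.R ^ 2) hv (fun a ha w _ => ?_) fun x y hx hy => ?_
      · rw [map_smul, Finsupp.smul_apply, smul_eq_mul]
        exact Ideal.mul_mem_right _ _ ha
      · rw [map_add, Finsupp.add_apply]
        exact add_mem hx hy
    rw [Matrix.map_apply, Matrix.zero_apply,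
      show univMat DQ τ i j = ((univBasis DQ).repr (DQ.ρ.ρ τ (univBasis DQ j) - univBasis DQ j) i)
        + (univBasis DQ).repr (univBasis DQ j) i by
          rw [map_sub, Finsupp.sub_apply, sub_add_cancel]
          exact LinearMap.toMatrix_apply _ _ _ i j,
      map_add, hd2 _ (hv i), zero_add, Basis.repr_self, Finsupp.single_apply]
    split <;> simp [derSpace_apply_one]
  rw [tangentCocycle_mul, tangentCocycle_apply DQ d τ, h0, zero_mul, mul_zero, zero_mul, add_zero]

variable (rb : GQ →* Mat2 (ResidueField 𝒪)) (V : (Mat2 (ResidueField 𝒪))ˣ)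

/-- The transported tangent cocycles are continuous trace-zero cocycles. -/
theorem conjMap_tangentCocycle_mem_adCocycles
    (hV : ∀ σ, (V : Mat2 (ResidueField 𝒪)) * barMat DQ σ = rb σ * V)
    (p : ℕ) [Fact p.Prime] (hdet : DQ.ρ.DetIsCyclotomic p)
    (d : derSpace DQ.residue_surjective) :
    conjMap V (tangentCocycle DQ d) ∈ adCocycles rb := by
  have hrb : ∀ σ, rb σ = (V : Mat2 (ResidueField 𝒪)) * barMat DQ σ *
      ((V⁻¹ : (Mat2 (ResidueField 𝒪))ˣ) : Mat2 (ResidueField 𝒪)) := fun σ => by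
    rw [hV, mul_assoc, Units.mul_inv, mul_one]
  refine ⟨fun σ τ => ?_, fun σ => ?_, ?_⟩
  · simp only [conjMap_apply, hrb, tangentCocycle_mul, mul_add, add_mul, mul_assoc,
      Units.inv_mul_cancel_left]
  · rw [conjMap_apply, Matrix.trace_mul_comm, ← mul_assoc, Units.inv_mul, one_mul]
    exact tangentCocycle_trace DQ p hdet d σ
  · obtain ⟨F, hF, h⟩ := tangentCocycle_levelConstant DQ d
    exact ⟨F, hF, fun σ τ hτ => by simp only [conjMap_apply, h σ τ hτ]⟩

/-- A bound on the Selmer group gives a presentation of the deformation ring. -/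
theorem exists_surjective_of_selmer_le
    (h𝒟 : ∀ (φ : DQ.R →ₐ[𝒪] DualNumber (ResidueField 𝒪))
      (hφ : IsLocalHom (φ : DQ.R →+* DualNumber (ResidueField 𝒪))), Function.Surjective φ →
        𝒟 (DQ.ρ.baseChangeAlong (φ : DQ.R →+* DualNumber (ResidueField 𝒪)) hφ))
    (hV : ∀ σ, (V : Mat2 (ResidueField 𝒪)) * barMat DQ σ = rb σ * V)
    {r : ℕ} (Z : Submodule (ResidueField 𝒪) (GQ → Mat2 (ResidueField 𝒪)))
    (hZ : ∀ d, conjMap V (tangentCocycle DQ d) ∈ Z)
    [FiniteDimensional (ResidueField 𝒪) (Z.map (LinearMap.range (adCoboundary rb)).mkQ)]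
    (hr : finrank (ResidueField 𝒪) (Z.map (LinearMap.range (adCoboundary rb)).mkQ) ≤ r) :
    ∃ γ : MvPowerSeries (Fin r) 𝒪 →ₐ[𝒪] DQ.R, Function.Surjective γ := by
  set B := LinearMap.range (adCoboundary rb)
  let g := ((B.mkQ ∘ₗ conjMap V) ∘ₗ tangentCocycle DQ).codRestrict (Z.map B.mkQ)
    fun d => Submodule.mem_map_of_mem (hZ d)
  have hg : Function.Injective g := by
    intro a b hab
    rw [← sub_eq_zero]
    refine eq_zero_of_tangentCocycle_mem_range DQ h𝒟 (a - b) ?_
    have h := g.map_add (a - b) b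
    have h' : g a = g (a - b) + g b := (congrArg g (sub_add_cancel a b)).symm.trans h
    rw [hab] at h'
    have h0 : B.mkQ (conjMap V (tangentCocycle DQ (a - b))) = 0 :=
      congrArg Subtype.val (right_eq_add.1 h')
    obtain ⟨X, hX⟩ := (Submodule.Quotient.mk_eq_zero B).1 h0
    refine ⟨((V⁻¹ : (Mat2 (ResidueField 𝒪))ˣ) : Mat2 (ResidueField 𝒪)) * X *
      (V : Mat2 (ResidueField 𝒪)), ?_⟩
    funext σ
    have hc := congrFun hX σ
    have hrb : ∀ σ, rb σ = (V : Mat2 (ResidueField 𝒪)) * barMat DQ σ *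
        ((V⁻¹ : (Mat2 (ResidueField 𝒪))ˣ) : Mat2 (ResidueField 𝒪)) := fun σ => by
      rw [hV, mul_assoc, Units.mul_inv, mul_one]
    rw [conjMap_apply, adCoboundary_apply, hrb, hrb] at hc
    have hc' := congrArg (fun Y : Mat2 (ResidueField 𝒪) =>
      ((V⁻¹ : (Mat2 (ResidueField 𝒪))ˣ) : Mat2 (ResidueField 𝒪)) * Y * V) hc
    simp only [mul_sub, sub_mul, mul_assoc, Units.inv_mul_cancel_left, Units.inv_mul, mul_one]
      at hc'
    rw [coboundary_apply]
    simp only [mul_assoc] at hc' ⊢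
    exact hc'
  have : FiniteDimensional (ResidueField 𝒪) (derSpace DQ.residue_surjective) :=
    Module.Finite.of_injective g hg
  exact exists_surjective_of_finrank_derSpace_le DQ.residue_surjective
    ((LinearMap.finrank_le_finrank_of_injective hg).trans hr)

end Deformation

end Fermat.Agent.TWAssembly
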